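/-
S32 / KJ : the Kummer model `Kum N m` of the ES project is the `m`-torsion of the Prelude's `JZero N`,
Galois equivariantly.
-/
import Fermat.Agent.S17.G.FromS27
import Fermat.Agent.ES.B.Module

set_option autoImplicit false

namespace Fermat.Agent.S32

open AlgebraicCurve ModularCurve Fermat.Agent.ES

section General

open Fermat.Agent.S26 Fermat.Agent.S27

variable {K F : Type*} [Field K] [Field F] [Algebra K F] [IsAlgClosed K] [CharZero K] [FF1 K F]

/-- `(1/m) div f` -/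
noncomputable def KJ_D (K : Type*) {F : Type*} [Field K] [Field F] [Algebra K F] [FF1 K F]
    (m : ℕ) (f : F) : Divisor K F :=
  (divisorOf (Ω := K) f).mapRange (fun n => n / (m : ℤ)) (by simp)

omit [IsAlgClosed K] [CharZero K] in
theorem KJ_D_apply (m : ℕ) (f : F) (P : Place K F) : KJ_D K m f P = P.ord f / (m : ℤ) := by
  simp [KJ_D, divisorOf_apply]

omit [IsAlgClosed K] [CharZero K] in
theorem KJ_smul_D (m : ℕ) (f : F) (hf : ∀ P : Place K F, (m : ℤ) ∣ P.ord f) :
    (m : ℤ) • KJ_D K m f = divisorOf f := by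
  ext P
  rw [Finsupp.smul_apply, KJ_D_apply, divisorOf_apply, smul_eq_mul, Int.mul_ediv_cancel' (hf P)]

omit [IsAlgClosed K] [CharZero K] in
theorem KJ_degree_D (m : ℕ) (hm : 0 < m) (f : F) (hf : ∀ P : Place K F, (m : ℤ) ∣ P.ord f) :
    Divisor.degree (KJ_D K m f) = 0 := by
  have := congrArg Divisor.degree (KJ_smul_D m f hf)
  rw [map_zsmul, degree_divisorOf, smul_eq_mul] at this
  rcases mul_eq_zero.mp this with h | h
  · exfalso; have : (m : ℤ) ≠ 0 := by exact_mod_cast hm.ne'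
    exact this h
  · exact h

omit [IsAlgClosed K] [CharZero K] in
theorem KJ_D_mul (m : ℕ) {f g : F} (hf0 : f ≠ 0) (hg0 : g ≠ 0)
    (hf : ∀ P : Place K F, (m : ℤ) ∣ P.ord f) :
    KJ_D K m (f * g) = KJ_D K m f + KJ_D K m g := by
  ext P
  rw [Finsupp.add_apply, KJ_D_apply, KJ_D_apply, KJ_D_apply, P.ord_mul hf0 hg0,
    Int.add_ediv_of_dvd_left (hf P)]

/-- a function without zeros and poles is a constant -/
theorem KJ_const {u : F} (hu : ∀ P : Place K F, P.ord u = 0) : ∃ c : K, algebraMap K F c = u := by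
  by_contra hc
  have ht : Transcendental K u := transcendental_iff.mpr hc
  obtain ⟨v, hv⟩ := exists_ord_pos ht
  rw [hu v] at hv
  exact lt_irrefl _ hv

/-- if `(1/m) div f` is principal then `f` is an `m`-th power -/
theorem KJ_pow_of_principal (m : ℕ) (hm : 0 < m) {f : F} (hf0 : f ≠ 0)
    (hf : ∀ P : Place K F, (m : ℤ) ∣ P.ord f)
    (hp : KJ_D K m f ∈ Divisor.principal (K := K) (F := F)) : ∃ h : F, h ^ m = f := by
  obtain ⟨h, hh0, hh⟩ := hp
  have hu : ∀ P : Place K F, P.ord (f * (h ^ m)⁻¹) = 0 := by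
    intro P
    rw [P.ord_mul hf0 (inv_ne_zero (pow_ne_zero _ hh0)), P.ord_inv, ← zpow_natCast, P.ord_zpow,
      ← hh P, KJ_D_apply, Int.mul_ediv_cancel' (hf P)]
    ring
  obtain ⟨c, hc⟩ := KJ_const hu
  obtain ⟨d, hd⟩ := IsAlgClosed.exists_pow_nat_eq c hm
  refine ⟨algebraMap K F d * h, ?_⟩
  rw [mul_pow, ← map_pow, hd, hc]
  field_simp

end General

section Modular

open Fermat.Agent.S26 Fermat.Agent.S27

variable (N : ℕ) (m : ℕ)

/-- `f ↦ class of (1/m) div f` on `Dm N m`. -/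
noncomputable def KJ_hom0 [FF1 Qb (FF N)] (hm : 0 < m) : Dm N m →* Multiplicative (JZero N) where
  toFun f := Multiplicative.ofAdd
    (Pic0.mk ⟨KJ_D Qb m ((f : (FF N)ˣ) : FF N), KJ_degree_D m hm _ f.2⟩)
  map_one' := by
    have : KJ_D Qb m (((1 : Dm N m) : (FF N)ˣ) : FF N) = 0 := by
      ext P
      rw [KJ_D_apply]
      simp
    rw [← ofAdd_zero]
    refine congrArg Multiplicative.ofAdd ?_
    rw [← Pic0.mk_zero]
    exact congrArg Pic0.mk (Subtype.ext this)
  map_mul' f g := by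
    rw [← ofAdd_add, ← Pic0.mk_add]
    refine congrArg Multiplicative.ofAdd (congrArg Pic0.mk (Subtype.ext ?_))
    exact KJ_D_mul m (f : (FF N)ˣ).ne_zero (g : (FF N)ˣ).ne_zero f.2

/-- the induced map on `Kum N m`. -/
noncomputable def KJ_hom [FF1 Qb (FF N)] (hm : 0 < m) : Kum N m →+ JZero N :=
  MonoidHom.toAdditiveLeft (QuotientGroup.lift _ (KJ_hom0 N m hm) (by
    rintro ⟨f, hf⟩ hfP
    rw [Subgroup.mem_subgroupOf] at hfP
    obtain ⟨h, hh⟩ := hfP
    have hh' : h ^ m = f := hh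
    rw [MonoidHom.mem_ker, ← ofAdd_zero]
    refine congrArg Multiplicative.ofAdd ?_
    refine (QuotientAddGroup.eq_zero_iff _).mpr ?_
    rw [AddSubgroup.mem_addSubgroupOf]
    refine ⟨(h : FF N), h.ne_zero, fun v => ?_⟩
    change KJ_D Qb m (f : FF N) v = _
    rw [KJ_D_apply, ← hh', Units.val_pow_eq_pow_val, ← zpow_natCast, v.ord_zpow,
      Int.mul_ediv_cancel_left _ (by exact_mod_cast hm.ne')]))

theorem KJ_hom_mk [FF1 Qb (FF N)] (hm : 0 < m) (f : Dm N m) :
    KJ_hom N m hm (Kum.mk f) =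
      Pic0.mk ⟨KJ_D Qb m ((f : (FF N)ˣ) : FF N), KJ_degree_D m hm _ f.2⟩ := rfl

theorem KJ_hom_injective [FF1 Qb (FF N)] (hm : 0 < m) : Function.Injective (KJ_hom N m hm) := by
  rw [injective_iff_map_eq_zero]
  intro x hx
  obtain ⟨f, rfl⟩ := Kum.mk_surjective x
  rw [KJ_hom_mk] at hx
  have hp := (QuotientAddGroup.eq_zero_iff _).mp hx
  rw [AddSubgroup.mem_addSubgroupOf] at hp
  obtain ⟨h, hh⟩ := KJ_pow_of_principal m hm (f : (FF N)ˣ).ne_zero f.2 hp
  rw [Kum.mk_eq_zero_iff]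
  have h0 : h ≠ 0 := by
    rintro rfl
    rw [zero_pow hm.ne'] at hh
    exact (f : (FF N)ˣ).ne_zero hh.symm
  exact ⟨Units.mk0 h h0, Units.ext (by rw [Units.val_pow_eq_pow_val]; exact hh)⟩

theorem KJ_hom_torsion [FF1 Qb (FF N)] (hm : 0 < m) (x : Kum N m) :
    (m : ℤ) • KJ_hom N m hm x = 0 := by
  rw [← map_zsmul, natCast_zsmul, Kum.nsmul_eq_zero, map_zero]

theorem KJ_hom_surj [FF1 Qb (FF N)] (hm : 0 < m) (y : JZero N) (hy : (m : ℤ) • y = 0) :
    ∃ x, KJ_hom N m hm x = y := by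
  obtain ⟨E, rfl⟩ := Pic0.mk_surjective y
  have hp : (m : ℤ) • E ∈ (Divisor.principal (K := Qb) (F := FF N)).addSubgroupOf
      (Divisor.degZero (K := Qb) (F := FF N)) := (QuotientAddGroup.eq_zero_iff _).mp hy
  rw [AddSubgroup.mem_addSubgroupOf] at hp
  obtain ⟨f, hf0, hf⟩ := hp
  have hf' : ∀ v : Place Qb (FF N), v.ord f = (m : ℤ) * (E : Divisor Qb (FF N)) v := by
    intro v
    rw [← hf v]
    simp
  have hD : Units.mk0 f hf0 ∈ Dm N m := fun P => ⟨_, hf' P⟩
  refine ⟨Kum.mk ⟨Units.mk0 f hf0, hD⟩, ?_⟩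
  rw [KJ_hom_mk]
  refine congrArg Pic0.mk (Subtype.ext ?_)
  ext P
  change KJ_D Qb m f P = _
  rw [KJ_D_apply, hf', Int.mul_ediv_cancel_left _ (by exact_mod_cast hm.ne')]

theorem KJ_hom_gal [FF1 Qb (FF N)] (hm : 0 < m) (σ : GQ) (x : Kum N m) :
    KJ_hom N m hm (galKum N m σ x) = σ • KJ_hom N m hm x := by
  obtain ⟨f, rfl⟩ := Kum.mk_surjective x
  rw [galKum_mk, KJ_hom_mk, KJ_hom_mk, galois_smul_pic0_def, SemilinearAut.pic0_smul_mk]
  refine congrArg Pic0.mk (Subtype.ext ?_)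
  rw [SemilinearAut.coe_degZeroSMulHom]
  ext w
  rw [SemilinearAut.divisor_smul_apply]
  change KJ_D Qb m (galF N σ ((f : (FF N)ˣ) : FF N)) w = KJ_D Qb m ((f : (FF N)ˣ) : FF N) _
  rw [KJ_D_apply, KJ_D_apply]
  have h := ord_galF N σ ((arithmeticGalois (modularFunctionFieldFull N) σ)⁻¹ • w)
    ((f : (FF N)ˣ) : FF N)
  rw [smul_inv_smul] at h
  rw [h]

end Modular

/-- **`Kum N m ≃ J₀(N)[m]`**, `f ↦ class of (1/m) div f`.

PROOF.  `K = Qb`, `F = FF N = modularFunctionFieldBar N`;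
`have : S26.FF1 Qb (FF N) := S17.G.ff1_of_isFF _ (FL Qb N)` (as in `S17.G.h2fin`) gives the API of
`S27/A/Basic.lean` + `S26/FF/*`: `divisorOf f`, `divisorOf_apply`, `degree_divisorOf`, `deg_eq_one`,
`degree_eq_sum`, `transcendental_iff`, `exists_place_val_eq` / `S26.exists_ord_pos`.
* for `f ∈ Dm N m` let `D f : Divisor` be `(divisorOf f).mapRange (· / m) _`, so `m • D f = divisorOf f`
  (`Int.mul_ediv_cancel'`), hence `m * degree (D f) = 0` and `D f ∈ degZero`.  `D (f g) = D f + D g`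
  (multiply by `m`; `Divisor` is torsion free) : a homomorphism `Dm N m → Pic0`, with values in the
  `m`-torsion because `m • D f` is principal.
* it kills `h ^ m` (`D (h ^ m) = divisorOf h`); conversely if `D f = div h` then `u = f / h ^ m` has
  all orders `0`, so it is not transcendental (`exists_place_val_eq hu 0` gives a zero), so it is a
  constant `c ≠ 0` (`transcendental_iff`), an `m`-th power as `Qb` is algebraically closed
  (`IsAlgClosed.exists_pow_nat_eq`).  So the induced map `Kum N m → J[m]` is injective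
  (`Kum.mk_eq_zero_iff`).
* surjective: `x = Pic0.mk E`, `m • E = div f` principal; then `f ∈ Dm N m` and `D f = E`.
* equivariance: `galKum_mk`, `coe_galU`, `ES.ord_galF`, `SemilinearAut.pic0_smul_mk`,
  `SemilinearAut.divisor_smul_apply(_smul)`, `galois_smul_pic0_def`. -/
theorem exists_kumEquiv (N : ℕ) [NeZero N] (m : ℕ) (hm : 0 < m) (M : ℤ) (hM : M = (m : ℤ)) :
    ∃ e : Kum N m ≃+ ↥(Submodule.torsionBy ℤ (JZero N) M),
      ∀ (σ : GQ) (x : Kum N m), ((e (galKum N m σ x) : ↥(Submodule.torsionBy ℤ (JZero N) M)) : JZero N)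
        = σ • ((e x : ↥(Submodule.torsionBy ℤ (JZero N) M)) : JZero N) := by
  subst hM
  have : S26.FF1 Qb (FF N) := S17.G.ff1_of_isFF _ (S17.FL Qb N)
  let φ : Kum N m →+ ↥(Submodule.torsionBy ℤ (JZero N) (m : ℤ)) :=
    { toFun := fun x => ⟨KJ_hom N m hm x,
        (Submodule.mem_torsionBy_iff _ _).mpr (KJ_hom_torsion N m hm x)⟩
      map_zero' := Subtype.ext (map_zero _)
      map_add' := fun x y => Subtype.ext (map_add _ x y) }
  have hφ : Function.Bijective φ := by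
    constructor
    · intro x y hxy
      exact KJ_hom_injective N m hm (congrArg Subtype.val hxy)
    · rintro ⟨y, hy⟩
      obtain ⟨x, hx⟩ := KJ_hom_surj N m hm y ((Submodule.mem_torsionBy_iff _ _).mp hy)
      exact ⟨x, Subtype.ext hx⟩
  exact ⟨AddEquiv.ofBijective φ hφ, fun σ x => KJ_hom_gal N m hm σ x⟩

end Fermat.Agent.S32
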