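/-
S32 / Faith : the Hecke operators on `Kum N (p ^ n)`: they commute with each other and with Galois, and a
noncommutative polynomial in them which vanishes on `Kum N (p ^ n)` is divisible by `p ^ (n - c₀)` in the
Hecke algebra.
-/
import Fermat.Agent.S31.Glue
import Fermat.Agent.ES.B.Comm

set_option autoImplicit false

namespace Fermat.Agent.S32

open Fermat.Agent.ES Fermat.Agent.ES.Glue Fermat.Agent.S31

variable (N : ℕ) [NeZero N] (m : ℕ)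

theorem commute_heckeEndNat (ℓ ℓ' : ℕ) : Commute (heckeEndNat N m ℓ) (heckeEndNat N m ℓ') := by
  by_cases h : ℓ.Prime ∧ ¬ ℓ ∣ N
  · by_cases h' : ℓ'.Prime ∧ ¬ ℓ' ∣ N
    · have : NeZero ℓ := ⟨h.1.ne_zero⟩
      have : NeZero ℓ' := ⟨h'.1.ne_zero⟩
      rw [heckeEndNat_eq N m h.1 h.2, heckeEndNat_eq N m h'.1 h'.2]
      ext x
      exact heckeKum_comm ℓ ℓ' h.1 h.2 h'.1 h'.2 x
    · have : heckeEndNat N m ℓ' = 0 := dif_neg h'
      rw [this]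
      exact Commute.zero_right _
  · have : heckeEndNat N m ℓ = 0 := dif_neg h
    rw [this]
    exact Commute.zero_left _

theorem commute_heckeEndNat_galEnd (ℓ : ℕ) (σ : S31.GQ) :
    Commute (heckeEndNat N m ℓ) (galEnd N m σ) := by
  by_cases h : ℓ.Prime ∧ ¬ ℓ ∣ N
  · have : NeZero ℓ := ⟨h.1.ne_zero⟩
    rw [heckeEndNat_eq N m h.1 h.2]
    ext x
    exact (galKum_heckeKum N ℓ h.1 h.2 σ x).symm
  · have : heckeEndNat N m ℓ = 0 := dif_neg h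
    rw [this]
    exact Commute.zero_left _

/-- **Faithfulness** for arbitrary noncommutative polynomials in the `T_ℓ`, `ℓ ∉ S`. -/
theorem faith_kum {p : ℕ} (hp : p.Prime) (S : Finset ℕ)
    (hN : ∀ ℓ : ℕ, ℓ.Prime → ℓ ∉ S → ¬ ℓ ∣ N) (hS' : ∀ ℓ : ℕ, ℓ ∉ S → ℓ ∉ (↑S : Set ℕ)) :
    ∃ c₀ : ℕ, ∀ (n : ℕ) (F : FreeAlgebra ℤ {ℓ : ℕ // ℓ.Prime ∧ ℓ ∉ S}),
      FreeAlgebra.lift ℤ (fun i => heckeEndNat N (p ^ n) i.1) F = 0 →
      ∃ z : CuspForm.heckeAlgebra N 2 (↑S : Set ℕ),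
        FreeAlgebra.lift ℤ (fun i : {ℓ : ℕ // ℓ.Prime ∧ ℓ ∉ S} =>
          (CuspForm.heckeAlgebra.T i.2.1 (hN i.1 i.2.1 i.2.2) (hS' i.1 i.2.2) :
            CuspForm.heckeAlgebra N 2 (↑S : Set ℕ))) F = (p ^ (n - c₀) : ℕ) • z := by
  obtain ⟨c, hc⟩ := Rel.exists_shift (perL_injective N) (CuspForm.heckeAlgebra N 2 (↑S : Set ℕ)) p
  refine ⟨c, fun n F hF => ?_⟩
  -- rename the generators
  let r : {ℓ : ℕ // ℓ.Prime ∧ ℓ ∉ S} → D.GoodPrime N := fun i => ⟨i.1, i.2.1, hN i.1 i.2.1 i.2.2⟩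
  let R : FreeAlgebra ℤ {ℓ : ℕ // ℓ.Prime ∧ ℓ ∉ S} →ₐ[ℤ] FreeAlgebra ℤ (D.GoodPrime N) :=
    FreeAlgebra.lift ℤ fun i => FreeAlgebra.ι ℤ (r i)
  have hR : ∀ {B : Type} [Ring B] [Algebra ℤ B] (b : D.GoodPrime N → B),
      FreeAlgebra.lift ℤ b (R F) = FreeAlgebra.lift ℤ (fun i => b (r i)) F := by
    intro B _ _ b
    have : (FreeAlgebra.lift ℤ b).comp R = FreeAlgebra.lift ℤ (fun i => b (r i)) := by
      apply FreeAlgebra.hom_ext
      funext i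
      simp [R]
    exact congrArg (fun g : FreeAlgebra ℤ {ℓ : ℕ // ℓ.Prime ∧ ℓ ∉ S} →ₐ[ℤ] B => g F) this
  have h0 : FreeAlgebra.lift ℤ (heckeT N (p ^ n)) (R F) = 0 := by
    rw [hR]
    have : ((addMonoidEndRingEquivInt (Kum N (p ^ n))).toRingHom.toIntAlgHom).comp
        (FreeAlgebra.lift ℤ (fun i : {ℓ : ℕ // ℓ.Prime ∧ ℓ ∉ S} => heckeEndNat N (p ^ n) i.1))
        = FreeAlgebra.lift ℤ (fun i => heckeT N (p ^ n) (r i)) := by
      apply FreeAlgebra.hom_ext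
      funext i
      simp only [Function.comp_apply, AlgHom.coe_comp, FreeAlgebra.lift_ι_apply]
      exact equiv_heckeEndNat N _ i.2.1 (hN i.1 i.2.1 i.2.2)
    rw [← this, AlgHom.comp_apply, hF, map_zero]
  obtain ⟨A', hA'⟩ := strongSupp_Kum (pow_pos hp.pos n) (R F) h0
  refine hc n A' _ ?_
  rw [hR] at hA'
  have : (CuspForm.heckeAlgebra N 2 (↑S : Set ℕ)).val.comp
      (FreeAlgebra.lift ℤ (fun i : {ℓ : ℕ // ℓ.Prime ∧ ℓ ∉ S} =>
          (CuspForm.heckeAlgebra.T i.2.1 (hN i.1 i.2.1 i.2.2) (hS' i.1 i.2.2) :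
            CuspForm.heckeAlgebra N 2 (↑S : Set ℕ))))
      = FreeAlgebra.lift ℤ (fun i => D.heckeS2 N (r i)) := by
    apply FreeAlgebra.hom_ext
    funext i
    simp only [Function.comp_apply, AlgHom.coe_comp, FreeAlgebra.lift_ι_apply]
    rfl
  rw [← this] at hA'
  exact hA'

end Fermat.Agent.S32
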