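/-
S32 / Level : small facts on `T ⧸ I`, `V ⧸ I V` and the level action.
-/
import Mathlib
import Fermat.Prelude.Def_GaloisRep_Flat

set_option autoImplicit false

namespace Fermat.Agent.S32

open IsLocalRing

variable {T : Type} [CommRing T] [IsLocalRing T]

/-- an ideal of finite index contains a power of the maximal ideal. -/
theorem exists_pow_le_of_finite (I : Ideal T) [Finite (T ⧸ I)] : ∃ k : ℕ, maximalIdeal T ^ k ≤ I := by
  obtain ⟨k, hk⟩ := IsArtinianRing.isNilpotent_jacobson_bot (R := T ⧸ I)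
  refine ⟨k, ?_⟩
  have h1 : (maximalIdeal T).map (Ideal.Quotient.mk I) ≤ Ideal.jacobson (⊥ : Ideal (T ⧸ I)) := by
    rw [Ideal.map_le_iff_le_comap]
    intro x hx
    rw [Ideal.mem_comap, Ideal.jacobson, Ideal.mem_sInf]
    rintro M ⟨-, hM⟩
    have h2 : (M.comap (Ideal.Quotient.mk I)).IsMaximal :=
      Ideal.comap_isMaximal_of_surjective _ Ideal.Quotient.mk_surjective
    have : x ∈ M.comap (Ideal.Quotient.mk I) := by
      rw [IsLocalRing.eq_maximalIdeal h2]
      exact hx
    exact this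
  have h3 : (maximalIdeal T ^ k).map (Ideal.Quotient.mk I) = ⊥ := by
    rw [Ideal.map_pow, eq_bot_iff, ← Ideal.zero_eq_bot, ← hk]
    exact Ideal.pow_right_mono h1 k
  intro x hx
  rw [← Ideal.Quotient.eq_zero_iff_mem]
  have : Ideal.Quotient.mk I x ∈ (maximalIdeal T ^ k).map (Ideal.Quotient.mk I) :=
    Ideal.mem_map_of_mem _ hx
  rwa [h3] at this

omit [IsLocalRing T] in
/-- `V ⧸ I V` is finite. -/
theorem finite_quot_smul_top (I : Ideal T) [Finite (T ⧸ I)] (V : Type) [AddCommGroup V] [Module T V]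
    [Module.Finite T V] : Finite (V ⧸ (I • (⊤ : Submodule T V))) := by
  have : Module.Finite (T ⧸ I) (V ⧸ (I • (⊤ : Submodule T V))) :=
    Module.Finite.of_restrictScalars_finite T _ _
  exact Module.finite_of_finite (T ⧸ I)

/-- the level action as a monoid homomorphism. -/
noncomputable def levelEnd (ρ : GaloisRepAdic T) (I : Ideal T) :
    (AlgebraicClosure ℚ ≃ₐ[ℚ] AlgebraicClosure ℚ) →*
      AddMonoid.End (ρ.V ⧸ (I • (⊤ : Submodule T ρ.V))) where
  toFun σ := (ρ.levelAction I σ).toAddMonoidHom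
  map_one' := by
    ext x
    obtain ⟨v, rfl⟩ := Submodule.Quotient.mk_surjective _ x
    show ρ.levelAction I 1 (Submodule.Quotient.mk v) = Submodule.Quotient.mk v
    rw [GaloisRepAdic.levelAction, Submodule.mapQ_apply, map_one]
    rfl
  map_mul' σ τ := by
    ext x
    obtain ⟨v, rfl⟩ := Submodule.Quotient.mk_surjective _ x
    show ρ.levelAction I (σ * τ) (Submodule.Quotient.mk v)
      = ρ.levelAction I σ (ρ.levelAction I τ (Submodule.Quotient.mk v))
    rw [GaloisRepAdic.levelAction, GaloisRepAdic.levelAction, GaloisRepAdic.levelAction,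
      Submodule.mapQ_apply, Submodule.mapQ_apply, Submodule.mapQ_apply, map_mul]
    rfl

theorem levelEnd_apply (ρ : GaloisRepAdic T) (I : Ideal T)
    (σ : AlgebraicClosure ℚ ≃ₐ[ℚ] AlgebraicClosure ℚ) (x : ρ.V ⧸ (I • (⊤ : Submodule T ρ.V))) :
    levelEnd ρ I σ x = ρ.levelAction I σ x := rfl

theorem levelEnd_mk (ρ : GaloisRepAdic T) (I : Ideal T)
    (σ : AlgebraicClosure ℚ ≃ₐ[ℚ] AlgebraicClosure ℚ) (v : ρ.V) :
    levelEnd ρ I σ (Submodule.Quotient.mk v) = Submodule.Quotient.mk (ρ.ρ σ v) := by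
  rw [levelEnd_apply, GaloisRepAdic.levelAction, Submodule.mapQ_apply]

/-- an element of `ℤ[G_ℚ]` mapping `V` into `I V` kills `V ⧸ I V`. -/
theorem sum_levelEnd_eq_zero (ρ : GaloisRepAdic T) (I : Ideal T)
    (c : (AlgebraicClosure ℚ ≃ₐ[ℚ] AlgebraicClosure ℚ) →₀ ℤ)
    (h : ∀ v : ρ.V, (c.sum fun g m => m • ρ.ρ g v) ∈ I • (⊤ : Submodule T ρ.V)) :
    (c.sum fun g m => m • levelEnd ρ I g) = 0 := by
  ext x
  obtain ⟨v, rfl⟩ := Submodule.Quotient.mk_surjective _ x
  have h1 : (c.sum fun g m => m • levelEnd ρ I g) (Submodule.Quotient.mk v)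
      = Submodule.Quotient.mk (c.sum fun g m => m • ρ.ρ g v) := by
    rw [Finsupp.sum, Finsupp.sum]
    have e : ∀ (s : Finset (AlgebraicClosure ℚ ≃ₐ[ℚ] AlgebraicClosure ℚ)),
        (∑ g ∈ s, c g • levelEnd ρ I g) (Submodule.Quotient.mk v)
          = ∑ g ∈ s, c g • levelEnd ρ I g (Submodule.Quotient.mk v) := by
      intro s
      exact map_sum (AddMonoidHom.eval (Submodule.Quotient.mk v :
        ρ.V ⧸ (I • (⊤ : Submodule T ρ.V)))) (fun g => c g • levelEnd ρ I g) s
    rw [e]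
    have e2 : (Submodule.Quotient.mk (∑ g ∈ c.support, c g • ρ.ρ g v) :
        ρ.V ⧸ (I • (⊤ : Submodule T ρ.V)))
        = ∑ g ∈ c.support, c g • Submodule.Quotient.mk (ρ.ρ g v) := by
      rw [← Submodule.mkQ_apply, map_sum]
      refine Finset.sum_congr rfl fun g _ => ?_
      rw [map_zsmul]
      rfl
    rw [e2]
    refine Finset.sum_congr rfl fun g _ => ?_
    rw [levelEnd_mk]
  rw [h1, (Submodule.Quotient.mk_eq_zero _).mpr (h v)]
  rfl

/-- the residue field of `T` is finite if it is a quotient of a ring with finite residue field. -/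
theorem finite_residueField_of_surjective {𝒪 : Type} [CommRing 𝒪] [IsLocalRing 𝒪] [Algebra 𝒪 T]
    [IsLocalHom (algebraMap 𝒪 T)] [Finite (ResidueField 𝒪)]
    (h : Function.Surjective (residue T ∘ algebraMap 𝒪 T)) : Finite (ResidueField T) := by
  refine Finite.of_surjective (ResidueField.map (algebraMap 𝒪 T)) fun y => ?_
  obtain ⟨x, hx⟩ := h y
  exact ⟨residue 𝒪 x, by rw [ResidueField.map_residue]; exact hx⟩

end Fermat.Agent.S32
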