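/-
S32 : definitions.  `FlatMod p X act` is the existential of the Prelude's `IsFlatAt` / of the frozen
statement S19, for an arbitrary abelian group `X` with a map `act : G_ℚ → X → X`.
-/
import Fermat.Prelude.Def_GaloisRep_Flat

set_option autoImplicit false

namespace Fermat.Agent.S32

/-- `ℚ̄`. -/
abbrev Qb : Type := AlgebraicClosure ℚ

/-- The absolute Galois group of `ℚ`. -/
abbrev GQ : Type := Qb ≃ₐ[ℚ] Qb

/-- `X` (with the action `act` of `G_ℚ`) is the group of `ℚ̄`-points of a finite flat commutative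
group scheme over `ℤ_(p)`. -/
def FlatMod (p : ℕ) (X : Type) [AddCommGroup X] (act : GQ → X → X) : Prop :=
  ∃ (H : Type) (_ : CommRing H) (_ : HopfAlgebra (GaloisRep.ratLocalizedAt p) H),
    Module.Finite (GaloisRep.ratLocalizedAt p) H ∧
    Module.Flat (GaloisRep.ratLocalizedAt p) H ∧
    Coalgebra.IsCocomm (GaloisRep.ratLocalizedAt p) H ∧
    ∃ e : WithConv (H →ₐ[GaloisRep.ratLocalizedAt p] Qb) ≃ X,
      (∀ f g : WithConv (H →ₐ[GaloisRep.ratLocalizedAt p] Qb), e (f * g) = e f + e g) ∧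
      ∀ (σ : GQ) (f g : WithConv (H →ₐ[GaloisRep.ratLocalizedAt p] Qb)),
        (∀ h : H, g h = σ (f h)) → e g = act σ (e f)

end Fermat.Agent.S32
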