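/-
S32 : closure properties of `FlatMod` (finite powers, stable subgroups, equivariant quotients).
They are the closure properties of `S19.A.HasFlatModel` (S19/A/Closure, helper68 and the swarm).
-/
import Fermat.Agent.S32.Defs
import Fermat.Agent.S19.A.Closure.Main

set_option autoImplicit false

namespace Fermat.Agent.S32

variable {p : ℕ} {X W : Type} [AddCommGroup X] [AddCommGroup W]
  {aX : GQ → X → X} {aW : GQ → W → W}

/-- equivariant quotients (in particular transport along equivariant isomorphisms). -/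
theorem FlatMod.of_surjective (hp : p.Prime) (hX : FlatMod p X aX) (q : X →+ W)
    (hq : Function.Surjective q) (hequiv : ∀ σ x, q (aX σ x) = aW σ (q x)) : FlatMod p W aW :=
  haveI : Fact p.Prime := ⟨hp⟩
  S19.A.HasFlatModel.of_surjective (ℓ := p) (act := aX) hX q hq hequiv

/-- stable subgroups. -/
theorem FlatMod.subgroup (hp : p.Prime) (hX : FlatMod p X aX) (P : AddSubgroup X)
    (hP : ∀ σ, ∀ x ∈ P, aX σ x ∈ P) :
    FlatMod p P (fun σ x => ⟨aX σ x, hP σ x x.2⟩) :=
  haveI : Fact p.Prime := ⟨hp⟩
  S19.A.HasFlatModel.subgroup (ℓ := p) (act := aX) hX P hP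

/-- finite powers. -/
theorem FlatMod.pi (hp : p.Prime) (hX : FlatMod p X aX) (J : Type) [Finite J] :
    FlatMod p (J → X) (fun σ f j => aX σ (f j)) :=
  haveI : Fact p.Prime := ⟨hp⟩
  S19.A.HasFlatModel.pi (ℓ := p) (act := aX) hX J

end Fermat.Agent.S32
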