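/-
S32 / SubQ : a finite Galois module `W` whose annihilator in `ℤ[G_ℚ]` contains the annihilator of a flat
module `X` is flat: `W` is an equivariant quotient of a stable subgroup of a finite power of `X`.
-/
import Fermat.Agent.S32.Closure

set_option autoImplicit false

namespace Fermat.Agent.S32

section

variable {G M : Type} [Group G] [AddCommGroup M]

/-- the action of `ℤ[G]`. -/
noncomputable def zact (g : G →* AddMonoid.End M) : (G →₀ ℤ) →+ AddMonoid.End M where
  toFun c := c.sum fun σ m => m • g σ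
  map_zero' := Finsupp.sum_zero_index
  map_add' _ _ := Finsupp.sum_add_index' (fun _ => zero_smul _ _) (fun _ _ _ => add_smul _ _ _)

theorem zact_apply (g : G →* AddMonoid.End M) (c : G →₀ ℤ) :
    zact g c = c.sum fun σ m => m • g σ := rfl

theorem zact_mapDomain (g : G →* AddMonoid.End M) (σ : G) (c : G →₀ ℤ) :
    zact g (c.mapDomain fun τ => σ * τ) = g σ * zact g c := by
  rw [zact_apply, zact_apply, Finsupp.sum_mapDomain_index (h := fun τ (m : ℤ) => m • g τ)
    (fun _ => zero_smul _ _) (fun _ _ _ => add_smul _ _ _), Finsupp.sum, Finsupp.sum, Finset.mul_sum]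
  refine Finset.sum_congr rfl fun τ _ => ?_
  rw [map_mul, mul_smul_comm]

theorem zact_single_one (g : G →* AddMonoid.End M) : zact g (Finsupp.single 1 1) = 1 := by
  rw [zact_apply, Finsupp.sum_single_index (h := fun σ (m : ℤ) => m • g σ) (zero_smul _ _), one_smul,
    map_one]

end

/-- **(SUBQ)** -/
theorem flatMod_of_kill {p : ℕ} (hp : p.Prime) {X W : Type} [AddCommGroup X] [AddCommGroup W]
    [Finite X] [Finite W] (gX : GQ →* AddMonoid.End X) (gW : GQ →* AddMonoid.End W)
    (hX : FlatMod p X (fun σ x => gX σ x))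
    (hkill : ∀ c : GQ →₀ ℤ, (c.sum fun g m => m • gX g) = 0 → (c.sum fun g m => m • gW g) = 0) :
    FlatMod p W (fun σ w => gW σ w) := by
  classical
  have := Fintype.ofFinite W
  -- the maps `Ψ` and `Φ`
  let Ψ : (W → (GQ →₀ ℤ)) →+ (W × X → X) :=
    { toFun := fun c wx => zact gX (c wx.1) wx.2
      map_zero' := by
        funext wx
        simp
      map_add' := fun c c' => by
        funext wx
        show zact gX (c wx.1 + c' wx.1) wx.2 = _
        rw [map_add]
        rfl }
  let Φ : (W → (GQ →₀ ℤ)) →+ W :=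
    { toFun := fun c => ∑ w, zact gW (c w) w
      map_zero' := by simp
      map_add' := fun c c' => by
        rw [← Finset.sum_add_distrib]
        refine Finset.sum_congr rfl fun w _ => ?_
        show zact gW (c w + c' w) w = _
        rw [map_add]
        rfl }
  have hΨ : ∀ c wx, Ψ c wx = zact gX (c wx.1) wx.2 := fun _ _ => rfl
  have hΦ : ∀ c, Φ c = ∑ w, zact gW (c w) w := fun _ => rfl
  have hker : Ψ.rangeRestrict.ker ≤ Φ.ker := by
    intro c hc
    rw [AddMonoidHom.mem_ker] at hc ⊢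
    have hc' : Ψ c = 0 := congrArg Subtype.val hc
    rw [hΦ]
    refine Finset.sum_eq_zero fun w _ => ?_
    have h1 : zact gX (c w) = 0 := by
      ext x
      exact congrFun hc' (w, x)
    have h2 : zact gW (c w) = 0 := hkill _ h1
    rw [h2]
    rfl
  let q : Ψ.range →+ W :=
    Ψ.rangeRestrict.liftOfSurjective Ψ.rangeRestrict_surjective ⟨Φ, hker⟩
  have hq : ∀ c, q (Ψ.rangeRestrict c) = Φ c := fun c =>
    AddMonoidHom.liftOfRightInverse_comp_apply _ _ _ ⟨Φ, hker⟩ c
  -- stability
  have htr : ∀ (σ : GQ) (c : W → (GQ →₀ ℤ)),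
      (fun wx => gX σ (Ψ c wx)) = Ψ (fun w => (c w).mapDomain fun τ => σ * τ) := by
    intro σ c
    funext wx
    rw [hΨ, hΨ, zact_mapDomain]
    rfl
  have hstab : ∀ σ : GQ, ∀ f ∈ Ψ.range, (fun wx => gX σ (f wx)) ∈ Ψ.range := by
    rintro σ _ ⟨c, rfl⟩
    exact ⟨_, (htr σ c).symm⟩
  have h1 := (hX.pi hp (W × X)).subgroup hp Ψ.range hstab
  refine h1.of_surjective hp q ?_ ?_
  · intro w
    refine ⟨Ψ.rangeRestrict (Pi.single w (Finsupp.single 1 1)), ?_⟩
    rw [hq, hΦ, Finset.sum_eq_single w]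
    · rw [Pi.single_eq_same, zact_single_one]
      rfl
    · intro w' _ hw'
      rw [Pi.single_eq_of_ne hw', map_zero]
      rfl
    · intro h
      exact absurd (Finset.mem_univ w) h
  · rintro σ ⟨_, c, rfl⟩
    have e1 : (⟨Ψ c, c, rfl⟩ : Ψ.range) = Ψ.rangeRestrict c := rfl
    have e2 : (⟨fun wx => gX σ (Ψ c wx), hstab σ _ ⟨c, rfl⟩⟩ : Ψ.range)
        = Ψ.rangeRestrict (fun w => (c w).mapDomain fun τ => σ * τ) :=
      Subtype.ext (htr σ c)
    show q ⟨fun wx => gX σ (Ψ c wx), _⟩ = gW σ (q ⟨Ψ c, c, rfl⟩)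
    rw [e2, e1, hq, hq, hΦ, hΦ, map_sum]
    refine Finset.sum_congr rfl fun w _ => ?_
    rw [zact_mapDomain]
    rfl

end Fermat.Agent.S32
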