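/-
S32 / Core : the abstract trace lemma (pure algebra, Mathlib only).

`G` acts on an abelian group `X`; a commutative ring `𝔽` ("Hecke polynomials") acts on `X`, commuting
with `G`; every `g` satisfies the Cayley-Hamilton type relation `g + d(g) g⁻¹ = t(g)` on `X`, with
`t(g), d(g) ∈ 𝔽`, `d` multiplicative on `X`.  `ev : 𝔽 → R` is a ring homomorphism which kills every
`F` acting as `0` on `X` ("faithfulness").  If some `4 × 4` Gram matrix `(ev t(γ i γ j))` is invertible
("absolute irreducibility") then `ev ∘ t` factors through the image of `ℤ[G]` in `End X`: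
`∑ c_g g = 0` on `X`  ⟹  `∑ c_g ev (t g) = 0`.

PROOF.  Write `g* := act (d g) * gal g⁻¹ = act (t g) - gal g`; `(g h)* = h* g*` (uses `hd`, `hcomm`).
(1) POLARISATION.  `act (t (g h)) = g h + h* g* = g h + (t h - h)(t g - g)`, i.e.
      `g h + h g - t(g) h - t(h) g + t(g) t(h) - t(g h) = 0`   in `End X`.
(2) Multiply by `c_g` and sum over `g`; with `∑ c_g g = 0` and `τ := ∑ c_g t(g) ∈ 𝔽`:
      `act τ * gal h = act (τ * t h - ∑ c_g t (g h)) =: act (lam h)`   for all `h`.
(3) Hence `act τ * gal b * gal b' = act (lam b) * gal b' = gal b' * act (lam b) = act τ * gal b' * gal b`: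
    `G` acts COMMUTATIVELY on `Y := range (act τ)`.
(4) Let `𝔖 ⊆ End Y` be the subring generated by the restrictions of `act F` and `gal g`: commutative
    (`Subring.closureCommRingOfComm`).  In `𝔖`: `ψ g := gal g|Y`, `ψ' g := (act (d g) * gal g⁻¹)|Y` are
    multiplicative in `g` and `t(g)|Y = ψ g + ψ' g`.  So the Gram matrix `(t (γ i γ j)|Y) = A * Aᵀ` with
    `A` the `4 × 4` matrix with columns `ψ γ, ψ' γ, 0, 0`; `det A = 0`
    (`Matrix.det_eq_zero_of_column_eq_zero`).  With `Δ := det (t (γ i γ j)) ∈ 𝔽` (`RingHom.map_det`):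
    `act Δ = 0` on `Y`, i.e. `act (Δ * τ) = 0`.
(5) `hfaith`: `ev Δ * ev τ = 0`, and `ev Δ` is a unit by `hγ`.  So `ev τ = 0`.  ∎
-/
import Mathlib

set_option autoImplicit false

namespace Fermat.Agent.S32

namespace Core

universe u

/-- a `4 × 4` Gram matrix of rank `≤ 2` has determinant `0`. -/
theorem det_gram_eq_zero {S : Type*} [CommRing S] (ψ ψ' : Fin 4 → S) :
    Matrix.det (Matrix.of fun i j => ψ i * ψ j + ψ' i * ψ' j) = 0 := by
  set A : Matrix (Fin 4) (Fin 4) S :=
    Matrix.of fun i j => if j = 0 then ψ i else if j = 1 then ψ' i else 0 with hA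
  have h1 : (Matrix.of fun i j => ψ i * ψ j + ψ' i * ψ' j) = A * A.transpose := by
    ext i j
    simp [hA, Matrix.mul_apply, Fin.sum_univ_four]
  have h2 : A.det = 0 := by
    apply Matrix.det_eq_zero_of_column_eq_zero 2
    intro i
    simp [hA]
  rw [h1, Matrix.det_mul, h2, zero_mul]

open scoped IsMulCommutative in
/-- pairwise commuting elements live in a commutative ring. -/
theorem exists_commRing {𝔽 : Type*} {E : Type u} [CommRing 𝔽] [Ring E] (a : 𝔽 →+* E) (s : Set E)
    (hs : ∀ x ∈ s, ∀ y ∈ s, x * y = y * x) (has : ∀ F, ∀ x ∈ s, a F * x = x * a F) :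
    ∃ (S : Type u) (_ : CommRing S) (ι : S →+* E) (f : 𝔽 →+* S), Function.Injective ι ∧
      (∀ F, ι (f F) = a F) ∧ ∀ x ∈ s, ∃ z, ι z = x := by
  set s' : Set E := s ∪ Set.range a with hs'
  have hcomm : ∀ x ∈ s', ∀ y ∈ s', x * y = y * x := by
    rintro x (hx | ⟨F, rfl⟩) y (hy | ⟨F', rfl⟩)
    · exact hs x hx y hy
    · exact (has F' x hx).symm
    · exact has F y hy
    · rw [← map_mul, ← map_mul, mul_comm]
  have := Subring.isMulCommutative_closure hcomm
  refine ⟨Subring.closure s', inferInstance, (Subring.closure s').subtype,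
    a.codRestrict (Subring.closure s') (fun F => Subring.subset_closure (Or.inr ⟨F, rfl⟩)),
    Subtype.val_injective, fun F => rfl, fun x hx => ⟨⟨x, Subring.subset_closure (Or.inl hx)⟩, rfl⟩⟩

variable {X : Type*} [AddCommGroup X]

/-- restriction to `range T` of an endomorphism commuting with `T`. -/
def restr (T e : AddMonoid.End X) (h : e * T = T * e) : AddMonoid.End (AddMonoidHom.range T) :=
  AddMonoidHom.codRestrict (AddMonoidHom.comp e (AddMonoidHom.range T).subtype) _ (by
    rintro ⟨y, x, rfl⟩
    exact ⟨e x, (DFunLike.congr_fun h x).symm⟩)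

theorem restr_apply (T e : AddMonoid.End X) (h : e * T = T * e) (y : AddMonoidHom.range T) :
    ((restr T e h y : AddMonoidHom.range T) : X) = e y := rfl

theorem restr_mul (T e e' : AddMonoid.End X) (h : e * T = T * e) (h' : e' * T = T * e')
    (h'' : (e * e') * T = T * (e * e')) :
    restr T (e * e') h'' = restr T e h * restr T e' h' := by
  ext y
  rfl

theorem restr_add (T e e' : AddMonoid.End X) (h : e * T = T * e) (h' : e' * T = T * e')
    (h'' : (e + e') * T = T * (e + e')) :
    restr T (e + e') h'' = restr T e h + restr T e' h' := by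
  ext y
  rfl

theorem restr_eq_zero_iff (T e : AddMonoid.End X) (h : e * T = T * e) :
    restr T e h = 0 ↔ e * T = 0 := by
  constructor
  · intro h0
    ext x
    have := congrArg Subtype.val (DFunLike.congr_fun h0 ⟨T x, x, rfl⟩)
    exact this
  · intro h0
    ext ⟨y, x, rfl⟩
    exact DFunLike.congr_fun h0 x

theorem restr_congr (T e e' : AddMonoid.End X) (h : e * T = T * e) (h' : e' * T = T * e')
    (he : e * T = e' * T) : restr T e h = restr T e' h' := by
  ext ⟨y, x, rfl⟩
  exact DFunLike.congr_fun he x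

end Core

open Fermat.Agent.S32.Core in
theorem core {G X 𝔽 R : Type*} [Group G] [AddCommGroup X] [CommRing 𝔽] [CommRing R]
    (gal : G →* AddMonoid.End X) (act : 𝔽 →+* AddMonoid.End X)
    (hcomm : ∀ F g, act F * gal g = gal g * act F)
    (ev : 𝔽 →+* R) (hfaith : ∀ F, act F = 0 → ev F = 0)
    (t d : G → 𝔽)
    (ht : ∀ g, act (t g) = gal g + act (d g) * gal g⁻¹)
    (hd : ∀ g h, act (d (g * h)) = act (d g) * act (d h))
    (γ : Fin 4 → G)
    (hγ : IsUnit (Matrix.det (Matrix.of fun i j => ev (t (γ i * γ j)))))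
    (c : G →₀ ℤ) (hc : (c.sum fun g m => m • gal g) = 0) :
    (c.sum fun g m => m • ev (t g)) = 0 := by
  classical
  have hact : ∀ F F', act F * act F' = act F' * act F := fun F F' => by
    rw [← map_mul, ← map_mul, mul_comm]
  -- `s g = g*`
  have hs : ∀ g, act (d g) * gal g⁻¹ = act (t g) - gal g := fun g => by rw [ht g]; abel
  -- (1) polarisation
  have h1 : ∀ g h, act (t (g * h)) = gal g * gal h + (act (t h) - gal h) * (act (t g) - gal g) := by
    intro g h
    rw [ht (g * h), ← hs h, ← hs g, map_mul, hd, mul_inv_rev, map_mul]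
    congr 1
    calc act (d g) * act (d h) * (gal h⁻¹ * gal g⁻¹)
        = act (d g) * (act (d h) * gal h⁻¹) * gal g⁻¹ := by simp only [mul_assoc]
      _ = (act (d h) * gal h⁻¹) * act (d g) * gal g⁻¹ := by
          congr 1
          rw [← mul_assoc, hact, mul_assoc, hcomm, mul_assoc]
      _ = _ := by simp only [mul_assoc]
  set τ : 𝔽 := c.sum fun g m => m • t g with hτ
  have hactτ : act τ = c.sum fun g m => m • act (t g) := by
    rw [hτ, map_finsuppSum]
    exact Finsupp.sum_congr fun g _ => by rw [map_zsmul]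
  -- (2)
  set lam : G → 𝔽 := fun h => t h * τ - c.sum fun g m => m • t (g * h) with hlam
  have h2 : ∀ h, gal h * act τ = act (lam h) := by
    intro h
    have e1 : act (c.sum fun g m => m • t (g * h))
        = c.sum fun g m => m • (gal g * gal h + (act (t h) - gal h) * (act (t g) - gal g)) := by
      rw [map_finsuppSum]
      exact Finsupp.sum_congr fun g _ => by rw [map_zsmul, h1]
    have e2 : (c.sum fun g m => m • (gal g * gal h + (act (t h) - gal h) * (act (t g) - gal g)))
        = (c.sum fun g m => m • gal g) * gal h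
          + (act (t h) - gal h) * ((c.sum fun g m => m • act (t g)) - c.sum fun g m => m • gal g) := by
      simp only [Finsupp.sum, Finset.sum_mul, Finset.mul_sum, ← Finset.sum_sub_distrib,
        ← Finset.sum_add_distrib]
      refine Finset.sum_congr rfl fun g _ => ?_
      rw [zsmul_add, smul_mul_assoc, ← zsmul_sub, mul_smul_comm]
    rw [hlam]
    simp only
    rw [map_sub, map_mul, e1, e2, hc, ← hactτ, zero_mul, zero_add, sub_zero, sub_mul]
    abel
  have hcτ : ∀ g, gal g * act τ = act τ * gal g := fun g => (hcomm τ g).symm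
  have haτ : ∀ F, act F * act τ = act τ * act F := fun F => hact F τ
  -- (3)
  have h3 : ∀ b b', gal b * gal b' * act τ = gal b' * gal b * act τ := by
    intro b b'
    calc gal b * gal b' * act τ = gal b * (gal b' * act τ) := mul_assoc _ _ _
      _ = gal b * act (lam b') := by rw [h2 b']
      _ = act (lam b') * gal b := (hcomm _ _).symm
      _ = gal b' * act τ * gal b := by rw [h2 b']
      _ = gal b' * (act τ * gal b) := mul_assoc _ _ _
      _ = gal b' * (gal b * act τ) := by rw [hcτ b]
      _ = gal b' * gal b * act τ := (mul_assoc _ _ _).symm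
  set T := act τ with hT
  -- the restricted actions
  let aY : 𝔽 →+* AddMonoid.End (AddMonoidHom.range T) :=
    { toFun := fun F => restr T (act F) (haτ F)
      map_one' := by
        ext y
        show act 1 (y : X) = y
        rw [map_one]; rfl
      map_mul' := fun F F' => by
        ext y
        show act (F * F') (y : X) = act F (act F' (y : X))
        rw [map_mul]; rfl
      map_zero' := by
        ext y
        show act 0 (y : X) = 0
        rw [map_zero]; rfl
      map_add' := fun F F' => by
        ext y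
        show act (F + F') (y : X) = act F (y : X) + act F' (y : X)
        rw [map_add]; rfl }
  let gY : G → AddMonoid.End (AddMonoidHom.range T) := fun g => restr T (gal g) (hcτ g)
  have haY : ∀ F, aY F = restr T (act F) (haτ F) := fun F => rfl
  have hgYmul : ∀ g h, gY (g * h) = gY g * gY h := by
    intro g h
    ext y
    show gal (g * h) (y : X) = gal g (gal h (y : X))
    rw [map_mul]; rfl
  obtain ⟨S, _, ι, f, hι, hιf, hιs⟩ := exists_commRing aY (Set.range gY) (by
      rintro _ ⟨b, rfl⟩ _ ⟨b', rfl⟩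
      ext ⟨y, x, rfl⟩
      exact DFunLike.congr_fun (h3 b b') x) (by
      rintro F _ ⟨b, rfl⟩
      ext y
      exact DFunLike.congr_fun (hcomm F b) (y : X))
  choose ψ hψ using fun g => hιs (gY g) ⟨g, rfl⟩
  have hψmul : ∀ g h, ψ (g * h) = ψ g * ψ h := fun g h => hι (by
    rw [map_mul, hψ, hψ, hψ, hgYmul])
  have hfd : ∀ g h, f (d (g * h)) = f (d g) * f (d h) := fun g h => hι (by
    rw [map_mul, hιf, hιf, hιf, ← map_mul]
    ext y
    show act (d (g * h)) (y : X) = act (d g * d h) (y : X)
    rw [hd, map_mul])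
  have hft : ∀ g, f (t g) = ψ g + f (d g) * ψ g⁻¹ := fun g => hι (by
    rw [map_add, map_mul, hιf, hιf, hψ, hψ]
    ext y
    exact DFunLike.congr_fun (ht g) (y : X))
  set Δ : 𝔽 := Matrix.det (Matrix.of fun i j => t (γ i * γ j)) with hΔ
  have hfΔ : f Δ = 0 := by
    rw [hΔ, RingHom.map_det]
    have : f.mapMatrix (Matrix.of fun i j => t (γ i * γ j))
        = Matrix.of fun i j => ψ (γ i) * ψ (γ j)
          + (f (d (γ i)) * ψ (γ i)⁻¹) * (f (d (γ j)) * ψ (γ j)⁻¹) := by
      ext i j
      simp only [RingHom.mapMatrix_apply, Matrix.map_apply, Matrix.of_apply]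
      rw [hft, hψmul, hfd, mul_inv_rev, hψmul]
      ring
    rw [this]
    exact det_gram_eq_zero _ _
  have h4 : act (Δ * τ) = 0 := by
    rw [map_mul]
    have : aY Δ = 0 := by rw [← hιf, hfΔ, map_zero]
    exact (restr_eq_zero_iff T (act Δ) (haτ Δ)).mp this
  have h5 := hfaith _ h4
  rw [map_mul] at h5
  have hevΔ : ev Δ = Matrix.det (Matrix.of fun i j => ev (t (γ i * γ j))) := by
    rw [hΔ, RingHom.map_det]
    rfl
  rw [hevΔ] at h5
  have h6 : ev τ = 0 := by
    obtain ⟨u, hu⟩ := hγ
    rw [← hu] at h5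
    exact (Units.mul_right_eq_zero u).mp h5
  rw [hτ, map_finsuppSum] at h6
  rw [← h6]
  exact Finsupp.sum_congr fun g _ => by rw [map_zsmul]

end Fermat.Agent.S32
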