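/-
S32 / Gram : consequences of residual absolute irreducibility (on top of S31/Span).
-/
import Fermat.Agent.S31.Span

set_option autoImplicit false

namespace Fermat.Agent.S32

open IsLocalRing

variable {T : Type} [CommRing T] [IsLocalRing T]

/-- nondegeneracy of the trace form on `End V`, `V` free of finite rank. -/
theorem eq_zero_of_trace_mul_eq_zero {k V ι : Type*} [CommRing k] [AddCommGroup V] [Module k V]
    [Fintype ι] [DecidableEq ι] (b : Module.Basis ι k V) (Z : Module.End k V)
    (h : ∀ Y : Module.End k V, LinearMap.trace k V (Y * Z) = 0) : Z = 0 := by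
  have h2 : LinearMap.toMatrix b b Z = 0 := by
    ext i j
    have h3 := h ((LinearMap.toMatrix b b).symm (Matrix.single j i 1))
    rw [LinearMap.trace_eq_matrix_trace k b, Module.End.mul_eq_comp, LinearMap.toMatrix_comp b b b,
      LinearEquiv.apply_symm_apply] at h3
    rw [Matrix.trace_single_mul] at h3
    simpa using h3
  exact (LinearMap.toMatrix b b).injective (by rw [h2, map_zero])

/-- the field case of `exists_gram`. -/
theorem exists_gram_field {k V G : Type*} [Field k] [AddCommGroup V] [Module k V] [Monoid G]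
    (hV : Module.finrank k V = 2) (r : G →* Module.End k V)
    (hspan : Submodule.span k (Set.range r) = ⊤) :
    ∃ γ : Fin 4 → G,
      Matrix.det (Matrix.of fun i j => LinearMap.trace k V (r (γ i * γ j))) ≠ 0 := by
  have : Module.Finite k V := Module.finite_of_finrank_eq_succ hV
  have hfr : Module.finrank k (Submodule.span k (Set.range r)) = 4 := by
    rw [hspan, finrank_top, Module.finrank_linearMap, hV]
  obtain ⟨f, hf, hfspan, hfli⟩ : ∃ f : Fin 4 → Module.End k V, (∀ i, f i ∈ Set.range r) ∧
      Submodule.span k (Set.range f) = Submodule.span k (Set.range r) ∧ LinearIndependent k f := by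
    have := Submodule.exists_fun_fin_finrank_span_eq k (Set.range r)
    rwa [hfr] at this
  choose γ hγ using hf
  refine ⟨γ, fun hdet => ?_⟩
  obtain ⟨x, hx0, hx⟩ := Matrix.exists_mulVec_eq_zero_iff.2 hdet
  apply hx0
  set Z : Module.End k V := ∑ j, x j • f j with hZ
  have h1 : ∀ i, LinearMap.trace k V (f i * Z) = 0 := by
    intro i
    have h2 := congrFun hx i
    rw [hZ, Finset.mul_sum, map_sum]
    rw [Matrix.mulVec, dotProduct] at h2
    rw [Pi.zero_apply] at h2
    rw [← h2]
    refine Finset.sum_congr rfl fun j _ => ?_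
    rw [Matrix.of_apply, map_mul r, hγ, hγ, mul_smul_comm, map_smul, smul_eq_mul, mul_comm]
  have h2 : ∀ Y : Module.End k V, LinearMap.trace k V (Y * Z) = 0 := by
    intro Y
    have hY : Y ∈ Submodule.span k (Set.range f) := by rw [hfspan, hspan]; trivial
    induction hY using Submodule.span_induction with
    | mem y hy =>
      obtain ⟨i, rfl⟩ := hy
      exact h1 i
    | zero => simp
    | add x y _ _ hx hy => rw [add_mul, map_add, hx, hy, add_zero]
    | smul c x _ hx => rw [smul_mul_assoc, map_smul, hx, smul_zero]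
  have h3 : Z = 0 := eq_zero_of_trace_mul_eq_zero (Module.finBasisOfFinrankEq k V hV) Z h2
  funext j
  exact Fintype.linearIndependent_iff.1 hfli x h3 j

/-- **Gram matrix.**  There are four elements of `G_ℚ` whose Gram matrix for the trace form is
invertible.  PROOF: `S31.span_residual_eq_top ρ.residual habs`: the `ρ̄(σ)` span `End(ρ̄)`, of dimension
`4`, so four of them form a basis `B` (`Module.Basis.ofSpan`, or `exists_linearIndependent`); if
`∑_j x_j tr(B_i B_j) = 0` for all `i` then `Z = ∑ x_j B_j` has `tr(Y Z) = 0` for all `Y`, so `Z = 0`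
(matrix units, as at the end of `S31.eq_one_of_trace`), so `x = 0`: the determinant is nonzero in the
residue field (`Matrix.exists_mulVec_eq_zero_iff`).  It is the residue of the determinant over `T`
(`LinearMap.trace_baseChange`, `RingHom.map_det`); a non-zero residue means a unit. -/
theorem exists_gram (ρ : GaloisRepAdic T) (habs : ρ.residual.IsAbsolutelyIrreducible) :
    ∃ γ : Fin 4 → (AlgebraicClosure ℚ ≃ₐ[ℚ] AlgebraicClosure ℚ),
      IsUnit (Matrix.det (Matrix.of fun i j => LinearMap.trace T ρ.V (ρ.ρ (γ i * γ j)))) := by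
  obtain ⟨γ, hγ⟩ := exists_gram_field ρ.residual.finrank_eq ρ.residual.ρ
    (S31.span_residual_eq_top ρ.residual habs)
  refine ⟨γ, (residue_ne_zero_iff_isUnit _).1 ?_⟩
  rw [RingHom.map_det]
  have h1 : (residue T).mapMatrix
      (Matrix.of fun i j => LinearMap.trace T ρ.V (ρ.ρ (γ i * γ j))) =
      Matrix.of fun i j => LinearMap.trace (ResidueField T) ρ.residual.V
        (ρ.residual.ρ (γ i * γ j)) := by
    ext i j
    rw [RingHom.mapMatrix_apply, Matrix.map_apply, Matrix.of_apply, Matrix.of_apply]
    exact (LinearMap.trace_baseChange (ρ.ρ (γ i * γ j)) (ResidueField T)).symm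
  rw [h1]
  exact hγ

/-- **Perfectness of the trace form modulo `I`.**  PROOF: `Z := ∑ c_g ρ(g)`; `tr(Z ρ(b)) ∈ I` for all
`b`, hence `tr(Z Y) ∈ I` for all `Y` (`S31.span_eq_top`, `Submodule.span_induction`); with `Y` the matrix
units (basis `Module.finBasisOfFinrankEq T ρ.V ρ.finrank_eq`, `Matrix.trace_single_mul` as in
`S31.eq_one_of_trace`) all matrix entries of `Z` are in `I`; so `Z v ∈ I • ⊤`. -/
theorem apply_mem_of_trace_mem (ρ : GaloisRepAdic T) (habs : ρ.residual.IsAbsolutelyIrreducible)
    (I : Ideal T) (c : (AlgebraicClosure ℚ ≃ₐ[ℚ] AlgebraicClosure ℚ) →₀ ℤ)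
    (h : ∀ b, (c.sum fun g m => m • LinearMap.trace T ρ.V (ρ.ρ (g * b))) ∈ I) (v : ρ.V) :
    (c.sum fun g m => m • ρ.ρ g v) ∈ I • (⊤ : Submodule T ρ.V) := by
  let b : Module.Basis (Fin 2) T ρ.V := Module.finBasisOfFinrankEq T ρ.V ρ.finrank_eq
  set Z : Module.End T ρ.V := c.sum fun g m => m • ρ.ρ g with hZ
  have hZv : (c.sum fun g m => m • ρ.ρ g v) = Z v := by
    rw [hZ, Finsupp.sum, Finsupp.sum, LinearMap.sum_apply]
    rfl
  have hZb : ∀ b', LinearMap.trace T ρ.V (Z * ρ.ρ b') ∈ I := by
    intro b'
    have h0 := h b'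
    have h1 : LinearMap.trace T ρ.V (Z * ρ.ρ b')
        = c.sum fun g m => m • LinearMap.trace T ρ.V (ρ.ρ (g * b')) := by
      rw [hZ, Finsupp.sum, Finsupp.sum, Finset.sum_mul, map_sum]
      refine Finset.sum_congr rfl fun g _ => ?_
      rw [smul_mul_assoc, map_zsmul, map_mul ρ.ρ]
    rw [h1]
    exact h0
  have h1 : ∀ Y : Module.End T ρ.V, LinearMap.trace T ρ.V (Z * Y) ∈ I := by
    intro Y
    have hY : Y ∈ Submodule.span T (Set.range ρ.ρ) := by
      rw [Fermat.Agent.S31.span_eq_top ρ habs]; trivial
    induction hY using Submodule.span_induction with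
    | mem y hy =>
      obtain ⟨g, rfl⟩ := hy
      exact hZb g
    | zero => simp
    | add x y _ _ hx hy => rw [mul_add, map_add]; exact I.add_mem hx hy
    | smul a x _ hx => rw [mul_smul_comm, map_smul, smul_eq_mul]; exact I.mul_mem_left _ hx
  have h2 : ∀ i j, LinearMap.toMatrix b b Z i j ∈ I := by
    intro i j
    have h3 := h1 ((LinearMap.toMatrix b b).symm (Matrix.single j i 1))
    rw [LinearMap.trace_eq_matrix_trace T b, Module.End.mul_eq_comp, LinearMap.toMatrix_comp b b b,
      LinearEquiv.apply_symm_apply, Matrix.trace_mul_comm, Matrix.trace_single_mul] at h3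
    simpa using h3
  have h3 : Z v = ∑ i, (∑ j, LinearMap.toMatrix b b Z i j * b.repr v j) • b i := by
    conv_lhs => rw [← b.sum_repr (Z v)]
    refine Finset.sum_congr rfl fun i _ => ?_
    rw [← LinearMap.toMatrix_mulVec_repr b b Z v]
    rfl
  rw [hZv, h3]
  exact Submodule.sum_mem _ fun i _ => Submodule.smul_mem_smul
    (I.sum_mem fun j _ => I.mul_mem_right _ (h2 i j)) Submodule.mem_top

end Fermat.Agent.S32
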