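/-
S32 / Test : the annihilator of a test module kills `V / I V`.
-/
import Fermat.Agent.S31.Core
import Fermat.Agent.S32.Core
import Fermat.Agent.S32.Gram

set_option autoImplicit false

namespace Fermat.Agent.S32

open Polynomial IsLocalRing Fermat.Agent.S31

section

variable {T : Type} [CommRing T] [IsLocalRing T] (ρ : GaloisRepAdic T) {p : ℕ} (hp : p.Prime)
  (S : Finset ℕ) (hpS : p ∈ S) (a : ℕ → T)
  (hchar : ∀ ℓ : ℕ, ℓ.Prime → ℓ ∉ S → ∀ A : ValuationSubring S31.Qb, A.LiesOverPrime ℓ →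
    ∀ φ : S31.GQ, A.IsFrobeniusAt φ ℓ →
      LinearMap.charpoly (ρ.ρ φ) = X ^ 2 - C (a ℓ) * X + C ((ℓ : ℕ) : T))

include hp hpS hchar in
/-- **(TR)** `∑ c_g g = 0` on the test module `Y` implies `∑ c_g tr ρ(g) ∈ I`.

PROOF = `S32.core` with `G = G_ℚ`, `X = Y.M`, `gal = Y.gal`, `R = T ⧸ I`,
`IS = {ℓ // ℓ.Prime ∧ ℓ ∉ S}`, `𝔽 = MvPolynomial IS ℤ`.
* `Z := Algebra.adjoin ℤ (Set.range fun i : IS => Y.hecke i)` is a commutative ring
  (`Algebra.adjoinCommRingOfComm`, `hTT`); `act := Z.val ∘ MvPolynomial.aeval (fun i => ⟨Y.hecke i, _⟩)`;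
  `ev := Ideal.Quotient.mk I ∘ MvPolynomial.aeval (fun i => a i)`.
* `hcomm`: `MvPolynomial.induction_on` + `hTg`.
* `hfaith`: `FreeAlgebra.lift ℤ MvPolynomial.X : FreeAlgebra ℤ IS →ₐ 𝔽` is surjective
  (`MvPolynomial.induction_on`); for `F = lift X F'`: `act F = lift (Y.hecke ·) F'` and
  `aeval a F = lift (a ·) F'` (`FreeAlgebra.hom_ext`); apply the hypothesis `hfaith`.
* fix a primitive `p ^ n`-th root of unity `ζ` (as in `S31.core`); `S31.approx ρ hp S hpS a hchar Y k ζ _ g`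
  gives `ℓ_g, j_g`; `t g := aeval (X ⟨ℓ_g, _⟩) (dickson 1 ℓ_g j_g)`, `d g := C (ℓ_g ^ j_g)`.
  `ht` is the 4th clause of `approx`; `hd`: `ζ ^ (ℓ_{gh}^{j_{gh}}) = (g h) ζ = ζ ^ (ℓ_g^{j_g} ℓ_h^{j_h})`, then
  `S31.modEq_of_pow_eq`, `S31.natCast_end_eq_of_modEq Y.kill`.
* `ev (t g) = mk (tr ρ(g))` by the 5th clause of `approx` and `hk`; so `hγ` follows from
  `S32.exists_gram ρ habs` (`RingHom.map_det`, `IsUnit.map`) and the conclusion of `core` is the claim
  (`Ideal.Quotient.eq_zero_iff_mem`, `map_finsuppSum`/`Finsupp.sum`, `map_zsmul`). -/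
theorem trace_mem_of_kill (habs : ρ.residual.IsAbsolutelyIrreducible)
    (I : Ideal T) (k : ℕ) (hk : maximalIdeal T ^ k ≤ I) {q n : ℕ} (Y : TestModule p S q n)
    (hTT : ∀ ℓ ℓ' : ℕ, Commute (Y.hecke ℓ) (Y.hecke ℓ'))
    (hTg : ∀ (ℓ : ℕ) (σ : S31.GQ), Commute (Y.hecke ℓ) (Y.gal σ))
    (hfaith : ∀ F : FreeAlgebra ℤ {ℓ : ℕ // ℓ.Prime ∧ ℓ ∉ S},
      FreeAlgebra.lift ℤ (fun i => Y.hecke i.1) F = 0 →
        FreeAlgebra.lift ℤ (fun i => a i.1) F ∈ I)
    (c : S31.GQ →₀ ℤ) (hc : (c.sum fun g m => m • Y.gal g) = 0) :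
    (c.sum fun g m => m • LinearMap.trace T ρ.V (ρ.ρ g)) ∈ I := by
  classical
  -- index set and the polynomial ring
  let IS : Type := {ℓ : ℕ // ℓ.Prime ∧ ℓ ∉ S}
  let hk' : IS → AddMonoid.End Y.M := fun i => Y.hecke i.1
  let Zs : Subalgebra ℤ (AddMonoid.End Y.M) := Algebra.adjoin ℤ (Set.range hk')
  letI : CommRing Zs := Algebra.adjoinCommRingOfComm ℤ (by
    rintro _ ⟨i, rfl⟩ _ ⟨j, rfl⟩
    exact hTT i.1 j.1)
  let aevalZ : MvPolynomial IS ℤ →ₐ[ℤ] Zs :=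
    MvPolynomial.aeval (fun i => (⟨hk' i, Algebra.subset_adjoin ⟨i, rfl⟩⟩ : Zs))
  let actA : MvPolynomial IS ℤ →ₐ[ℤ] AddMonoid.End Y.M := Zs.val.comp aevalZ
  have hactX : ∀ i, actA (MvPolynomial.X i) = Y.hecke i.1 := by
    intro i
    simp [actA, aevalZ, hk']
  let evA : MvPolynomial IS ℤ →ₐ[ℤ] T := MvPolynomial.aeval (fun i : IS => a i.1)
  have hevX : ∀ i, evA (MvPolynomial.X i) = a i.1 := by
    intro i
    simp [evA]
  let ev : MvPolynomial IS ℤ →+* T ⧸ I := (Ideal.Quotient.mk I).comp evA.toRingHom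
  -- commutation
  have hcomm : ∀ F g, actA.toRingHom F * Y.gal g = Y.gal g * actA.toRingHom F := by
    intro F g
    change actA F * Y.gal g = Y.gal g * actA F
    induction F using MvPolynomial.induction_on with
    | C z =>
      have : actA (MvPolynomial.C z) = ((z : ℤ) : AddMonoid.End Y.M) := by
        rw [← MvPolynomial.algebraMap_eq, AlgHom.commutes]; rfl
      rw [this]
      exact (Int.cast_commute z (Y.gal g))
    | add P Q hP hQ => rw [map_add, add_mul, mul_add, hP, hQ]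
    | mul_X P i hP =>
      rw [map_mul, hactX, mul_assoc, (hTg i.1 g).eq, ← mul_assoc, hP, mul_assoc]
  -- faithfulness
  let π : FreeAlgebra ℤ IS →ₐ[ℤ] MvPolynomial IS ℤ := FreeAlgebra.lift ℤ MvPolynomial.X
  have hπ : Function.Surjective π := by
    intro F
    induction F using MvPolynomial.induction_on with
    | C z => exact ⟨algebraMap ℤ _ z, by rw [AlgHom.commutes]; rfl⟩
    | add P Q hP hQ =>
      obtain ⟨P', rfl⟩ := hP
      obtain ⟨Q', rfl⟩ := hQ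
      exact ⟨P' + Q', map_add _ _ _⟩
    | mul_X P i hP =>
      obtain ⟨P', rfl⟩ := hP
      exact ⟨P' * FreeAlgebra.ι ℤ i, by rw [map_mul]; simp [π]⟩
  have hπact : actA.comp π = FreeAlgebra.lift ℤ (fun i : IS => Y.hecke i.1) := by
    apply FreeAlgebra.hom_ext
    funext i
    simp [π, hactX]
  have hπev : evA.comp π = FreeAlgebra.lift ℤ (fun i : IS => a i.1) := by
    apply FreeAlgebra.hom_ext
    funext i
    simp [π, hevX]
  have hfaith' : ∀ F, actA.toRingHom F = 0 → ev F = 0 := by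
    intro F hF
    obtain ⟨F', rfl⟩ := hπ F
    change (Ideal.Quotient.mk I) (evA (π F')) = 0
    rw [Ideal.Quotient.eq_zero_iff_mem]
    have h1 : evA (π F') = FreeAlgebra.lift ℤ (fun i : IS => a i.1) F' := by
      rw [← hπev]; rfl
    rw [h1]
    apply hfaith
    rw [← hπact]
    exact hF
  -- root of unity
  have hpn : p ^ n ≠ 0 := pow_ne_zero _ hp.ne_zero
  have : NeZero (p ^ n) := ⟨hpn⟩
  obtain ⟨ζ, hζ⟩ : ∃ ζ : S31.Qb, IsPrimitiveRoot ζ (p ^ n) :=
    HasEnoughRootsOfUnity.exists_primitiveRoot S31.Qb (p ^ n)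
  have hζ1 := hζ.pow_eq_one
  choose ℓ j hℓ hℓS hz hM htr using fun g => S31.approx ρ hp S hpS a hchar Y k ζ hζ1 g
  let t : S31.GQ → MvPolynomial IS ℤ := fun g =>
    aeval (MvPolynomial.X (⟨ℓ g, hℓ g, hℓS g⟩ : IS)) (dickson 1 ((ℓ g : ℕ) : ℤ) (j g))
  let d : S31.GQ → MvPolynomial IS ℤ := fun g => ((ℓ g ^ j g : ℕ) : MvPolynomial IS ℤ)
  have hactd : ∀ g, actA.toRingHom (d g) = ((ℓ g ^ j g : ℕ) : AddMonoid.End Y.M) := by
    intro g
    exact map_natCast actA.toRingHom _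
  have ht : ∀ g, actA.toRingHom (t g) = Y.gal g + actA.toRingHom (d g) * Y.gal g⁻¹ := by
    intro g
    rw [hactd, ← hM g]
    change actA (aeval _ _) = _
    rw [← Polynomial.aeval_algHom_apply, hactX]
  have hd : ∀ g h, actA.toRingHom (d (g * h)) = actA.toRingHom (d g) * actA.toRingHom (d h) := by
    intro g h
    rw [hactd, hactd, hactd, ← Nat.cast_mul]
    apply S31.natCast_end_eq_of_modEq Y.kill
    apply S31.modEq_of_pow_eq hpn hζ
    rw [← hz (g * h), AlgEquiv.mul_apply, hz h, map_pow, hz g, ← pow_mul]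
  have hevt : ∀ g, ev (t g) = Ideal.Quotient.mk I (LinearMap.trace T ρ.V (ρ.ρ g)) := by
    intro g
    change (Ideal.Quotient.mk I) (evA (aeval _ _)) = _
    rw [← Polynomial.aeval_algHom_apply, hevX, eq_comm, Ideal.Quotient.eq]
    exact hk (htr g)
  obtain ⟨γ, hγ⟩ := S32.exists_gram ρ habs
  have hγ' : IsUnit (Matrix.det (Matrix.of fun i j => ev (t (γ i * γ j)))) := by
    have h1 := hγ.map (Ideal.Quotient.mk I)
    rw [RingHom.map_det] at h1
    convert h1 using 2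
    ext i j
    simp [hevt]
  have hmain := S32.core Y.gal actA.toRingHom hcomm ev hfaith' t d ht hd γ hγ' c hc
  rw [← Ideal.Quotient.eq_zero_iff_mem, Finsupp.sum, map_sum]
  rw [Finsupp.sum] at hmain
  rw [← hmain]
  refine Finset.sum_congr rfl fun g _ => ?_
  rw [map_zsmul, hevt]

include hp hpS hchar in
/-- **(ANN)** `∑ c_g g = 0` on the test module `Y` implies `∑ c_g ρ(g) v ∈ I V`. -/
theorem apply_mem_of_kill (habs : ρ.residual.IsAbsolutelyIrreducible)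
    (I : Ideal T) (k : ℕ) (hk : maximalIdeal T ^ k ≤ I) {q n : ℕ} (Y : TestModule p S q n)
    (hTT : ∀ ℓ ℓ' : ℕ, Commute (Y.hecke ℓ) (Y.hecke ℓ'))
    (hTg : ∀ (ℓ : ℕ) (σ : S31.GQ), Commute (Y.hecke ℓ) (Y.gal σ))
    (hfaith : ∀ F : FreeAlgebra ℤ {ℓ : ℕ // ℓ.Prime ∧ ℓ ∉ S},
      FreeAlgebra.lift ℤ (fun i => Y.hecke i.1) F = 0 →
        FreeAlgebra.lift ℤ (fun i => a i.1) F ∈ I)
    (c : S31.GQ →₀ ℤ) (hc : (c.sum fun g m => m • Y.gal g) = 0) (v : ρ.V) :
    (c.sum fun g m => m • ρ.ρ g v) ∈ I • (⊤ : Submodule T ρ.V) := by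
  refine apply_mem_of_trace_mem ρ habs I c (fun b => ?_) v
  -- right translate of `c` by `b`
  have h1 := trace_mem_of_kill ρ hp S hpS a hchar habs I k hk Y hTT hTg hfaith
    (c.mapDomain fun g => g * b) (by
      rw [Finsupp.sum_mapDomain_index (h := fun g (m : ℤ) => m • Y.gal g)
        (fun _ => zero_smul _ _) (fun _ _ _ => add_smul _ _ _)]
      have : (c.sum fun g m => m • Y.gal (g * b)) = (c.sum fun g m => m • Y.gal g) * Y.gal b := by
        rw [Finsupp.sum, Finsupp.sum, Finset.sum_mul]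
        refine Finset.sum_congr rfl fun g _ => ?_
        rw [map_mul, smul_mul_assoc]
      rw [this, hc, zero_mul])
  rwa [Finsupp.sum_mapDomain_index (h := fun g (m : ℤ) => m • LinearMap.trace T ρ.V (ρ.ρ g))
    (fun _ => zero_smul _ _) (fun _ _ _ => add_smul _ _ _)] at h1

end

end Fermat.Agent.S32
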