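/-
S32 / Final : the statement S19 (finite flat models of `J₀(N)[ℓ ^ k]`, `ℓ ∤ N`) implies the frozen S32.
-/
import Fermat.Agent.S32.SubQ
import Fermat.Agent.S32.Test
import Fermat.Agent.S32.Faith
import Fermat.Agent.S32.KJ
import Fermat.Agent.S32.Level
import Fermat.Agent.Crux.Main

set_option autoImplicit false

namespace Fermat.Agent.S32

open Polynomial IsLocalRing ModularCurve Fermat.Agent.ES Fermat.Agent.ES.Glue Fermat.Agent.S31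

/-- the frozen statement S19. -/
def S19Statement : Prop :=
  ∀ (p : ℕ) [NeZero p] (ℓ : ℕ) [Fact ℓ.Prime] (_ : ¬ ℓ ∣ p) (k : ℕ),
    ∃ (H : Type) (_ : CommRing H) (_ : HopfAlgebra (GaloisRep.ratLocalizedAt ℓ) H),
      Module.Finite (GaloisRep.ratLocalizedAt ℓ) H ∧ Module.Flat (GaloisRep.ratLocalizedAt ℓ) H ∧
      Coalgebra.IsCocomm (GaloisRep.ratLocalizedAt ℓ) H ∧
      ∃ e : WithConv (H →ₐ[GaloisRep.ratLocalizedAt ℓ] AlgebraicClosure ℚ) ≃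
          ↥(Submodule.torsionBy ℤ (JZero p) ((ℓ : ℤ) ^ k)),
        (∀ f g, e (f * g) = e f + e g) ∧
        ∀ (σ : AlgebraicClosure ℚ ≃ₐ[ℚ] AlgebraicClosure ℚ)
          (f g : WithConv (H →ₐ[GaloisRep.ratLocalizedAt ℓ] AlgebraicClosure ℚ)),
          (∀ h : H, g h = σ (f h)) → ((e g : JZero p)) = σ • (e f : JZero p)

/-- `Kum N (p ^ n)` is flat at `p ∤ N`. -/
theorem flatMod_kum (h19 : S19Statement) (N : ℕ) [NeZero N] {p : ℕ} (hp : p.Prime) (hpN : ¬ p ∣ N)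
    (n : ℕ) : FlatMod p (Kum N (p ^ n)) (fun σ x => galEnd N (p ^ n) σ x) := by
  have : Fact p.Prime := ⟨hp⟩
  obtain ⟨e, he⟩ := exists_kumEquiv N (p ^ n) (pow_pos hp.pos n) ((p : ℤ) ^ n) (by push_cast; rfl)
  obtain ⟨H, i1, i2, h1, h2, h3, ε, hε1, hε2⟩ := h19 N p hpN n
  have hmem : ∀ (σ : S32.GQ) (x : ↥(Submodule.torsionBy ℤ (JZero N) ((p : ℤ) ^ n))),
      σ • (x : JZero N) ∈ Submodule.torsionBy ℤ (JZero N) ((p : ℤ) ^ n) := by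
    intro σ x
    rw [← e.apply_symm_apply x, ← he]
    exact Subtype.property _
  have hJ : FlatMod p ↥(Submodule.torsionBy ℤ (JZero N) ((p : ℤ) ^ n))
      (fun σ x => ⟨σ • (x : JZero N), hmem σ x⟩) :=
    ⟨H, i1, i2, h1, h2, h3, ε, hε1, fun σ f g hfg => Subtype.ext (hε2 σ f g hfg)⟩
  refine hJ.of_surjective hp e.symm.toAddMonoidHom e.symm.surjective fun σ x => ?_
  show e.symm _ = galKum N (p ^ n) σ (e.symm x)
  rw [AddEquiv.symm_apply_eq]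
  apply Subtype.ext
  rw [he, e.apply_symm_apply]

variable {p : ℕ} {N : ℕ} [NeZero N] {S : Finset ℕ}
  {𝒪 : Type} [CommRing 𝒪] [IsDomain 𝒪] [IsDiscreteValuationRing 𝒪]
  [IsAdicComplete (IsLocalRing.maximalIdeal 𝒪) 𝒪]
  {θ : CuspForm.heckeAlgebra N 2 (↑S : Set ℕ) →+* IsLocalRing.ResidueField 𝒪}
  {T : Type} [CommRing T] [IsLocalRing T] [IsNoetherianRing T]
  [IsAdicComplete (IsLocalRing.maximalIdeal T) T] [Algebra 𝒪 T] [IsLocalHom (algebraMap 𝒪 T)]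
  [Module.Finite 𝒪 T] [Module.Free 𝒪 T]

/-- **S19 ⟹ S32.** -/
theorem isFlatAt_of_S19 (h19 : S19Statement)
    [Finite (IsLocalRing.ResidueField 𝒪)]
    (hp : p.Prime) (hp𝒪 : (p : 𝒪) ∈ IsLocalRing.maximalIdeal 𝒪) (hpN : ¬ p ∣ N)
    (hpS : p ∈ S) (hNS : ∀ q : ℕ, q.Prime → q ∣ N → q ∈ S)
    (H : CuspForm.HeckeGaloisRepDatum N (↑S : Set ℕ) 𝒪 θ T) :
    H.ρ.IsFlatAt p := by
  classical
  refine ⟨finite_residueField_of_surjective H.residue_surjective, fun I hI => ?_⟩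
  have hN : ∀ ℓ : ℕ, ℓ.Prime → ℓ ∉ S → ¬ ℓ ∣ N := fun ℓ hℓ hℓS h => hℓS (hNS ℓ hℓ h)
  have hS' : ∀ ℓ : ℕ, ℓ ∉ S → ℓ ∉ (↑S : Set ℕ) := fun ℓ h => by simpa using h
  obtain ⟨c₀, hc₀⟩ := faith_kum N hp S hN hS'
  obtain ⟨k, hk⟩ := exists_pow_le_of_finite I
  let a : ℕ → T := fun ℓ =>
    if h : ℓ.Prime ∧ ℓ ∉ S then H.π (CuspForm.heckeAlgebra.T h.1 (hN ℓ h.1 h.2) (hS' ℓ h.2)) else 0
  have ha : ∀ (ℓ : ℕ) (hℓ : ℓ.Prime) (hℓS : ℓ ∉ S),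
      a ℓ = H.π (CuspForm.heckeAlgebra.T hℓ (hN ℓ hℓ hℓS) (hS' ℓ hℓS)) := by
    intro ℓ hℓ hℓS
    exact dif_pos ⟨hℓ, hℓS⟩
  have hpT : (p : T) ∈ maximalIdeal T := by
    have h1 : (p : T) = algebraMap 𝒪 T (p : 𝒪) := by rw [map_natCast]
    rw [h1]
    exact map_nonunit (algebraMap 𝒪 T) _ hp𝒪
  -- an auxiliary prime outside `S`
  obtain ⟨q', hq'S, hq'⟩ : ∃ q', q' ∉ S ∧ q'.Prime := by
    obtain ⟨q', h1, h2⟩ := Nat.exists_infinite_primes (S.sup id + 1)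
    refine ⟨q', fun h => ?_, h2⟩
    have := Finset.le_sup (f := id) h
    simp only [id] at this
    omega
  have hcrux : ∀ ℓ : ℕ, ℓ.Prime → ¬ ℓ ∣ N * p ^ (k + c₀) → Crux N ℓ (p ^ (k + c₀)) :=
    fun ℓ hℓ h => Fermat.Agent.Crux.crux N ℓ (p ^ (k + c₀)) hℓ
      (fun h' => h (Dvd.dvd.mul_right h' _)) (fun h' => h (Dvd.dvd.mul_left h' _))
  let Y : TestModule p S q' (k + c₀) := kumTest hp hpS hNS q' (k + c₀) hq' hq'S hcrux
  have hchar : ∀ ℓ : ℕ, ℓ.Prime → ℓ ∉ S → ∀ A : ValuationSubring S31.Qb, A.LiesOverPrime ℓ →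
      ∀ φ : S31.GQ, A.IsFrobeniusAt φ ℓ →
        LinearMap.charpoly (H.ρ.ρ φ) = X ^ 2 - C (a ℓ) * X + C ((ℓ : ℕ) : T) := by
    intro ℓ hℓ hℓS A hA φ hφ
    rw [ha ℓ hℓ hℓS]
    exact H.charpoly_frob ℓ hℓ (hN ℓ hℓ hℓS) (hS' ℓ hℓS) A hA φ hφ
  have hfaith : ∀ F : FreeAlgebra ℤ {ℓ : ℕ // ℓ.Prime ∧ ℓ ∉ S},
      FreeAlgebra.lift ℤ (fun i => Y.hecke i.1) F = 0 →
        FreeAlgebra.lift ℤ (fun i => a i.1) F ∈ I := by
    intro F hF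
    obtain ⟨z, hz⟩ := hc₀ (k + c₀) F hF
    have e : (H.π.toIntAlgHom).comp (FreeAlgebra.lift ℤ (fun i : {ℓ : ℕ // ℓ.Prime ∧ ℓ ∉ S} =>
          (CuspForm.heckeAlgebra.T i.2.1 (hN i.1 i.2.1 i.2.2) (hS' i.1 i.2.2) :
            CuspForm.heckeAlgebra N 2 (↑S : Set ℕ))))
        = FreeAlgebra.lift ℤ (fun i : {ℓ : ℕ // ℓ.Prime ∧ ℓ ∉ S} => a i.1) := by
      apply FreeAlgebra.hom_ext
      funext i
      simp only [Function.comp_apply, AlgHom.coe_comp, FreeAlgebra.lift_ι_apply]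
      exact (ha i.1 i.2.1 i.2.2).symm
    rw [← e, AlgHom.comp_apply, hz, map_nsmul, Nat.add_sub_cancel, nsmul_eq_mul, Nat.cast_pow]
    exact hk (Ideal.mul_mem_right _ _ (Ideal.pow_mem_pow hpT k))
  have : Finite (Kum N (p ^ (k + c₀))) := finite_Kum (pow_pos hp.pos _)
  have : Finite (H.ρ.V ⧸ (I • (⊤ : Submodule T H.ρ.V))) := finite_quot_smul_top I H.ρ.V
  exact flatMod_of_kill hp (galEnd N (p ^ (k + c₀))) (levelEnd H.ρ I)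
    (flatMod_kum h19 N hp hpN (k + c₀)) fun c hc =>
      sum_levelEnd_eq_zero H.ρ I c fun v =>
        apply_mem_of_kill H.ρ hp S hpS a hchar H.residual_absIrr I k hk Y
          (commute_heckeEndNat N _) (commute_heckeEndNat_galEnd N _) hfaith c hc v

end Fermat.Agent.S32
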